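import Mathlib

/-!
# S52, cell [VALEXT] (1): extension of valuation subrings to algebraic extensions (prefix `s52v_`)

`F ⊆ Ω` fields.

* `s52v_exists_ext`: every valuation subring `v` of `F` is `A ∩ F` for some valuation subring `A` of
  `Ω` (Chevalley; no algebraicity needed);
* `s52v_R v`: the image of `v` in `Ω`; `s52v_C v`: its integral closure in `Ω`;
  `s52v_C_le`: the latter lies in every valuation subring of `Ω` containing `v`;
* `s52v_mem_C_of_forall`: an element lying in all valuation subrings of `Ω` containing `v` is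
  integral over `v`.
-/

set_option autoImplicit false

open Polynomial

namespace Fermat.Agent.S52

variable {F Ω : Type*} [Field F] [Field Ω] [Algebra F Ω]

/-- **Chevalley**: a valuation subring of `F` extends to `Ω`. -/
theorem s52v_exists_ext (v : ValuationSubring F) :
    ∃ A : ValuationSubring Ω, A.comap (algebraMap F Ω) = v := by
  obtain ⟨A, hA, hloc⟩ := IsLocalRing.exists_factor_valuationRing
    ((algebraMap F Ω).comp v.subtype)
  refine ⟨A, ?_⟩
  have hle : v ≤ A.comap (algebraMap F Ω) := fun x hx => hA ⟨x, hx⟩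
  refine le_antisymm ?_ hle
  intro x hx
  by_contra hxv
  have hx0 : x ≠ 0 := fun h => hxv (h ▸ v.zero_mem)
  have hinv : x⁻¹ ∈ v := (v.mem_or_inv_mem x).resolve_left hxv
  -- `x⁻¹` is a unit of `A`, hence of `v`
  have hu : IsUnit (((algebraMap F Ω).comp v.subtype).codRestrict A.toSubring hA ⟨x⁻¹, hinv⟩) := by
    refine isUnit_iff_exists_inv.mpr ⟨⟨algebraMap F Ω x, hx⟩, Subtype.ext ?_⟩
    show algebraMap F Ω x⁻¹ * algebraMap F Ω x = 1
    rw [← map_mul, inv_mul_cancel₀ hx0, map_one]
  have hu' : IsUnit (⟨x⁻¹, hinv⟩ : v) := hloc.map_nonunit _ hu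
  obtain ⟨⟨y, hy⟩, hxy⟩ := isUnit_iff_exists_inv.mp hu'
  have : x⁻¹ * y = 1 := congrArg Subtype.val hxy
  have hyx : y = x := by
    field_simp at this
    first | exact this | exact this.symm
  exact hxv (hyx ▸ hy)

variable (Ω) in
/-- The image of `v` in `Ω`. -/
def s52v_R (v : ValuationSubring F) : Subring Ω := v.toSubring.map (algebraMap F Ω)

theorem s52v_mem_R (v : ValuationSubring F) {x : Ω} :
    x ∈ s52v_R Ω v ↔ ∃ a ∈ v, algebraMap F Ω a = x := Iff.rfl

theorem s52v_algebraMap_mem_R (v : ValuationSubring F) {a : F} (ha : a ∈ v) :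
    algebraMap F Ω a ∈ s52v_R Ω v := ⟨a, ha, rfl⟩

variable (Ω) in
/-- The integral closure of `v` in `Ω`. -/
def s52v_C (v : ValuationSubring F) : Subring Ω := (integralClosure (s52v_R Ω v) Ω).toSubring

theorem s52v_mem_C (v : ValuationSubring F) {x : Ω} :
    x ∈ s52v_C Ω v ↔ IsIntegral (s52v_R Ω v) x := Iff.rfl

theorem s52v_R_le_C (v : ValuationSubring F) : s52v_R Ω v ≤ s52v_C Ω v :=
  fun x hx => (integralClosure (s52v_R Ω v) Ω).algebraMap_mem ⟨x, hx⟩

/-- The integral closure lies in every valuation subring of `Ω` containing `v`. -/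
theorem s52v_C_le (v : ValuationSubring F) (A : ValuationSubring Ω)
    (hA : s52v_R Ω v ≤ A.toSubring) : s52v_C Ω v ≤ A.toSubring := by
  have hic : IsIntegrallyClosedIn A.toSubring Ω := inferInstanceAs (IsIntegrallyClosedIn A Ω)
  intro x hx
  refine (Subring.isIntegrallyClosedIn_iff).mp hic ?_
  obtain ⟨p, hp, hpx⟩ := (s52v_mem_C v).mp hx
  refine ⟨p.map (Subring.inclusion hA), hp.map _, ?_⟩
  rw [eval₂_map]
  exact hpx

/-- An element lying in every valuation subring of `Ω` containing `v` is integral over `v`. -/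
theorem s52v_mem_C_of_forall (v : ValuationSubring F) {x : Ω}
    (h : ∀ V : ValuationSubring Ω, s52v_R Ω v ≤ V.toSubring → x ∈ V) :
    x ∈ s52v_C Ω v := by
  by_contra hx
  have hx' : x ∉ (integralClosure (s52v_R Ω v) Ω).toSubring := hx
  obtain ⟨V, hV, hxV⟩ := Subring.exists_le_valuationSubring_of_isIntegrallyClosedIn hx'
  exact hxV (h V ((s52v_R_le_C v).trans hV))

/-- If `A` lies above `v` then `A` contains the image of `v`. -/
theorem s52v_R_le_of_comap (v : ValuationSubring F) (A : ValuationSubring Ω)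
    (hA : A.comap (algebraMap F Ω) = v) : s52v_R Ω v ≤ A.toSubring := by
  rintro _ ⟨a, ha, rfl⟩
  have : a ∈ A.comap (algebraMap F Ω) := by rw [hA]; exact ha
  exact this

/-- If `A` lies above `v`, an element of `v` is a nonunit of `A` iff it is a nonunit of `v`. -/
theorem s52v_mem_nonunits_iff (v : ValuationSubring F) (A : ValuationSubring Ω)
    (hA : A.comap (algebraMap F Ω) = v) (a : F) :
    algebraMap F Ω a ∈ A.nonunits ↔ a ∈ v.nonunits := by
  rw [ValuationSubring.mem_nonunits_iff_or, ValuationSubring.mem_nonunits_iff_or]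
  by_cases ha : a = 0
  · simp [ha]
  · have h1 : algebraMap F Ω a ≠ 0 := by
      rwa [Ne, map_eq_zero]
    have h2 : (algebraMap F Ω a)⁻¹ ∈ A ↔ a⁻¹ ∈ v := by
      rw [← map_inv₀, ← hA]
      rfl
    simp only [ha, h1, false_or, h2]

end Fermat.Agent.S52
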