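import Mathlib
import Fermat.Agent.S52.VAL.Ext

/-!
# S52, cell [VALEXT] (2): a valuation subring above `v` is a localisation of the integral closure

`s52v_exists_fraction`: `Ω / F` algebraic, `A` a valuation subring of `Ω` above the valuation
subring `v` of `F`.  Every `x ∈ A` is a fraction `c / d` with `c, d` integral over `v` and `d` a
unit of `A`.  (The classical trick: from an equation `∑ aᵢ xⁱ = 0` with `aᵢ ∈ v`, `a_r` a unit and
`aᵢ ∈ 𝔪_v` for `i > r`, put `d := ∑_{i ≥ r} aᵢ x^{i-r}`; then `d` and `x d` lie in every valuation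
subring of `Ω` containing `v`.)
-/

set_option autoImplicit false

open Polynomial

namespace Fermat.Agent.S52

variable {F Ω : Type*} [Field F] [Field Ω] [Algebra F Ω]

/-- The two elements `d` and `x d` of the trick lie in every valuation subring containing `v`. -/
theorem s52v_trick_mem (v : ValuationSubring F) (V : ValuationSubring Ω)
    (hV : s52v_R Ω v ≤ V.toSubring) (a : ℕ → F) (ha : ∀ i, a i ∈ v) (x : Ω) (r m : ℕ)
    (h0 : ∑ i ∈ Finset.range r, algebraMap F Ω (a i) * x ^ i +
      x ^ r * ∑ j ∈ Finset.range m, algebraMap F Ω (a (r + j)) * x ^ j = 0) :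
    (∑ j ∈ Finset.range m, algebraMap F Ω (a (r + j)) * x ^ j) ∈ V ∧
      x * (∑ j ∈ Finset.range m, algebraMap F Ω (a (r + j)) * x ^ j) ∈ V := by
  have hα : ∀ i, algebraMap F Ω (a i) ∈ V := fun i => hV (s52v_algebraMap_mem_R v (ha i))
  set y := ∑ j ∈ Finset.range m, algebraMap F Ω (a (r + j)) * x ^ j with hy
  by_cases hx : x ∈ V
  · have hyV : y ∈ V := sum_mem fun j _ => mul_mem (hα _) (pow_mem hx j)
    exact ⟨hyV, mul_mem hx hyV⟩
  · have hx0 : x ≠ 0 := fun h => hx (h ▸ V.zero_mem)
    have hxi : x⁻¹ ∈ V := (V.mem_or_inv_mem x).resolve_left hx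
    have hxy : x * y ∈ V := by
      rcases r with _ | r'
      · have : y = 0 := by simpa using h0
        rw [this, mul_zero]
        exact V.zero_mem
      · have hxr : x ^ (r' + 1) * (x⁻¹) ^ r' = x := by
          rw [pow_succ, inv_pow]
          field_simp
        have key : x * y =
            -∑ i ∈ Finset.range (r' + 1), algebraMap F Ω (a i) * (x⁻¹) ^ (r' - i) := by
          have h1 : (∑ i ∈ Finset.range (r' + 1), algebraMap F Ω (a i) * x ^ i) * (x⁻¹) ^ r' +
              x * y = 0 := by
            have := congrArg (fun t => t * (x⁻¹) ^ r') h0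
            simp only [zero_mul, add_mul] at this
            rw [mul_right_comm, hxr] at this
            exact this
          have h2 : (∑ i ∈ Finset.range (r' + 1), algebraMap F Ω (a i) * x ^ i) * (x⁻¹) ^ r' =
              ∑ i ∈ Finset.range (r' + 1), algebraMap F Ω (a i) * (x⁻¹) ^ (r' - i) := by
            rw [Finset.sum_mul]
            refine Finset.sum_congr rfl fun i hi => ?_
            have hi' : i ≤ r' := Nat.lt_succ_iff.mp (Finset.mem_range.mp hi)
            have : x ^ i * (x⁻¹) ^ r' = (x⁻¹) ^ (r' - i) := by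
              obtain ⟨k, rfl⟩ := Nat.exists_eq_add_of_le hi'
              rw [Nat.add_sub_cancel_left, pow_add, ← mul_assoc, ← mul_pow, mul_inv_cancel₀ hx0,
                one_pow, one_mul]
            rw [mul_assoc, this]
          rw [h2] at h1
          exact eq_neg_of_add_eq_zero_right h1
        rw [key]
        exact neg_mem (sum_mem fun i _ => mul_mem (hα _) (pow_mem hxi _))
    refine ⟨?_, hxy⟩
    have : y = x * y * x⁻¹ := by field_simp
    rw [this]
    exact mul_mem hxy hxi

/-- **A valuation subring above `v` is the localisation of the integral closure of `v` at a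
prime**: every `x ∈ A` is a fraction of integral elements with denominator a unit of `A`. -/
theorem s52v_exists_fraction [Algebra.IsAlgebraic F Ω] (v : ValuationSubring F)
    (A : ValuationSubring Ω) (hA : A.comap (algebraMap F Ω) = v) {x : Ω} (hx : x ∈ A) :
    ∃ c d : Ω, c ∈ s52v_C Ω v ∧ d ∈ s52v_C Ω v ∧ d ∉ A.nonunits ∧ x * d = c := by
  -- an algebraic equation for `x`
  obtain ⟨p₀, hp₀, hp₀x⟩ := Algebra.IsAlgebraic.isAlgebraic (R := F) x
  -- normalise: coefficients in `v`, one of them equal to `1`
  obtain ⟨i₀, hi₀, hmax⟩ := Finset.exists_max_image p₀.support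
    (fun i => v.valuation (p₀.coeff i)) (Polynomial.nonempty_support_iff.mpr hp₀)
  set c₀ := p₀.coeff i₀ with hc₀
  have hc₀0 : c₀ ≠ 0 := Polynomial.mem_support_iff.mp hi₀
  set a : ℕ → F := fun i => c₀⁻¹ * p₀.coeff i with ha
  set n := p₀.natDegree with hn
  have hav : ∀ i, a i ∈ v := by
    intro i
    rw [← ValuationSubring.valuation_le_one_iff, ha]
    simp only [map_mul, map_inv₀]
    by_cases hi : i ∈ p₀.support
    · have h1 := hmax i hi
      have h2 : v.valuation c₀ ≠ 0 := (Valuation.ne_zero_iff _).mpr hc₀0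
      rw [inv_mul_le_iff₀ (zero_lt_iff.mpr h2), mul_one]
      exact h1
    · rw [Polynomial.notMem_support_iff.mp hi, map_zero, mul_zero]
      exact zero_le_one
  have hai₀ : a i₀ = 1 := by
    simp only [ha]
    exact inv_mul_cancel₀ hc₀0
  have hi₀n : i₀ ≤ n := Polynomial.le_natDegree_of_mem_supp _ hi₀
  have hsum : ∑ i ∈ Finset.range (n + 1), algebraMap F Ω (a i) * x ^ i = 0 := by
    have h1 : ∑ i ∈ Finset.range (n + 1), algebraMap F Ω (p₀.coeff i) * x ^ i = 0 := by
      rw [← hp₀x, Polynomial.aeval_eq_sum_range]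
      refine Finset.sum_congr rfl fun i _ => ?_
      rw [Algebra.smul_def]
    have h2 : ∑ i ∈ Finset.range (n + 1), algebraMap F Ω (a i) * x ^ i =
        algebraMap F Ω c₀⁻¹ * ∑ i ∈ Finset.range (n + 1), algebraMap F Ω (p₀.coeff i) * x ^ i := by
      rw [Finset.mul_sum]
      refine Finset.sum_congr rfl fun i _ => ?_
      simp only [ha, map_mul]
      ring
    rw [h2, h1, mul_zero]
  -- the largest index with a unit coefficient
  classical
  set r := Nat.findGreatest (fun i => a i ∉ v.nonunits) n with hr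
  have hone : (1 : F) ∉ v.nonunits := by
    rw [ValuationSubring.mem_nonunits_iff, map_one]
    exact lt_irrefl _
  have hPi₀ : a i₀ ∉ v.nonunits := by rw [hai₀]; exact hone
  have hrunit : a r ∉ v.nonunits :=
    Nat.findGreatest_spec (P := fun i => a i ∉ v.nonunits) hi₀n hPi₀
  have hrn : r ≤ n := Nat.findGreatest_le n
  have hgt : ∀ k, r < k → k ≤ n → a k ∈ v.nonunits := fun k hk hkn =>
    not_not.mp (Nat.findGreatest_is_greatest (P := fun i => a i ∉ v.nonunits) hk hkn)
  -- split the equation
  set m := n + 1 - r with hm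
  set y := ∑ j ∈ Finset.range m, algebraMap F Ω (a (r + j)) * x ^ j with hy
  have h0 : ∑ i ∈ Finset.range r, algebraMap F Ω (a i) * x ^ i + x ^ r * y = 0 := by
    rw [← hsum, ← Finset.sum_range_add_sum_Ico _ (show r ≤ n + 1 by omega),
      Finset.sum_Ico_eq_sum_range]
    congr 1
    rw [hy, Finset.mul_sum]
    refine Finset.sum_congr rfl fun j _ => ?_
    rw [pow_add]
    ring
  have hRA : s52v_R Ω v ≤ A.toSubring := s52v_R_le_of_comap v A hA
  have hyC : y ∈ s52v_C Ω v :=
    s52v_mem_C_of_forall v fun V hV => (s52v_trick_mem v V hV a hav x r m h0).1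
  have hxyC : x * y ∈ s52v_C Ω v :=
    s52v_mem_C_of_forall v fun V hV => (s52v_trick_mem v V hV a hav x r m h0).2
  refine ⟨x * y, y, hxyC, hyC, ?_, rfl⟩
  -- `y ≡ a_r` modulo the maximal ideal of `A`
  obtain ⟨m', hm'⟩ : ∃ m', m = m' + 1 := ⟨n - r, by omega⟩
  have hy' : y = ∑ j ∈ Finset.range m', algebraMap F Ω (a (r + (j + 1))) * x ^ (j + 1) +
      algebraMap F Ω (a r) := by
    rw [hy, hm', Finset.sum_range_succ']
    simp
  have hsmall : A.valuation (∑ j ∈ Finset.range m',
      algebraMap F Ω (a (r + (j + 1))) * x ^ (j + 1)) < 1 := by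
    refine Valuation.map_sum_lt _ one_ne_zero fun j hj => ?_
    have hj' : j < m' := Finset.mem_range.mp hj
    have h1 : a (r + (j + 1)) ∈ v.nonunits := hgt _ (by omega) (by omega)
    have h2 : A.valuation (algebraMap F Ω (a (r + (j + 1)))) < 1 :=
      (ValuationSubring.mem_nonunits_iff A).mp ((s52v_mem_nonunits_iff v A hA _).mpr h1)
    have h3 : A.valuation (x ^ (j + 1)) ≤ 1 :=
      (ValuationSubring.valuation_le_one_iff A _).mpr (pow_mem hx _)
    rw [map_mul]
    calc A.valuation (algebraMap F Ω (a (r + (j + 1)))) * A.valuation (x ^ (j + 1))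
        ≤ A.valuation (algebraMap F Ω (a (r + (j + 1)))) * 1 := mul_le_mul' le_rfl h3
      _ = A.valuation (algebraMap F Ω (a (r + (j + 1)))) := mul_one _
      _ < 1 := h2
  have hunit : A.valuation (algebraMap F Ω (a r)) = 1 := by
    have h1 : algebraMap F Ω (a r) ∉ A.nonunits := fun h =>
      hrunit ((s52v_mem_nonunits_iff v A hA _).mp h)
    have h2 : A.valuation (algebraMap F Ω (a r)) ≤ 1 :=
      (ValuationSubring.valuation_le_one_iff A _).mpr (hRA (s52v_algebraMap_mem_R v (hav r)))
    rw [ValuationSubring.mem_nonunits_iff, not_lt] at h1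
    exact le_antisymm h2 h1
  rw [ValuationSubring.mem_nonunits_iff, not_lt, hy']
  have := Valuation.map_add_eq_of_lt_right (v := A.valuation) (x := ∑ j ∈ Finset.range m',
      algebraMap F Ω (a (r + (j + 1))) * x ^ (j + 1)) (y := algebraMap F Ω (a r))
    (by rw [hunit]; exact hsmall)
  rw [this, hunit]

end Fermat.Agent.S52
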