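import Mathlib
import Fermat.Agent.S52.VAL.Frac

/-!
# S52, cell [VALEXT] (3): conjugacy of the extensions of a valuation subring (prefix `s52v_`)

`Ω / F` Galois (possibly infinite), `v` a valuation subring of `F`.

* `s52v_conj`: two valuation subrings of `Ω` above `v` are conjugate under `Gal(Ω/F)`.

Proof: `C :=` integral closure of `v` in `Ω` with its `Gal(Ω/F)`-action; the primes
`𝔮_A := 𝔪_A ∩ C` lie over `𝔪_v`; Mathlib's `Algebra.IsInvariant.exists_smul_of_under_eq_of_profinite`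
gives `g` with `𝔮_{A'} = g • 𝔮_A`; and `A` is determined by `𝔮_A` (`s52v_exists_fraction`).
-/

set_option autoImplicit false

open Polynomial
open scoped Pointwise

namespace Fermat.Agent.S52

variable {F Ω : Type*} [Field F] [Field Ω] [Algebra F Ω]

/-- Automorphisms over `F` preserve the integral closure of `v`. -/
theorem s52v_map_mem_C (v : ValuationSubring F) (σ : Ω ≃ₐ[F] Ω) {x : Ω} (hx : x ∈ s52v_C Ω v) :
    σ x ∈ s52v_C Ω v := by
  obtain ⟨p, hp, hpx⟩ := (s52v_mem_C v).mp hx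
  refine (s52v_mem_C v).mpr ⟨p, hp, ?_⟩
  have hcomp : (σ : Ω →+* Ω).comp (algebraMap (s52v_R Ω v) Ω) = algebraMap (s52v_R Ω v) Ω := by
    ext ⟨_, a, ha, rfl⟩
    exact σ.commutes a
  have := Polynomial.hom_eval₂ p (algebraMap (s52v_R Ω v) Ω) (σ : Ω →+* Ω) x
  rw [hcomp, hpx, map_zero] at this
  exact this.symm

/-- The Galois action on the integral closure of `v`. -/
@[instance_reducible] def s52v_act (v : ValuationSubring F) :
    MulSemiringAction (Ω ≃ₐ[F] Ω) (s52v_C Ω v) where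
  smul σ c := ⟨σ c.1, s52v_map_mem_C v σ c.2⟩
  one_smul _ := Subtype.ext rfl
  mul_smul _ _ _ := Subtype.ext rfl
  smul_zero σ := Subtype.ext (map_zero σ)
  smul_add σ a b := Subtype.ext (map_add σ a.1 b.1)
  smul_one σ := Subtype.ext (map_one σ)
  smul_mul σ a b := Subtype.ext (map_mul σ a.1 b.1)

/-- The algebra structure of the integral closure over (the image of) `v`. -/
@[instance_reducible] def s52v_algRC (v : ValuationSubring F) :
    Algebra (s52v_R Ω v) (s52v_C Ω v) :=
  (Subring.inclusion (s52v_R_le_C v)).toAlgebra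

attribute [local instance] s52v_act s52v_algRC

theorem s52v_act_coe (v : ValuationSubring F) (σ : Ω ≃ₐ[F] Ω) (c : s52v_C Ω v) :
    ((σ • c : s52v_C Ω v) : Ω) = σ (c : Ω) := rfl

theorem s52v_algRC_coe (v : ValuationSubring F) (r : s52v_R Ω v) :
    ((algebraMap (s52v_R Ω v) (s52v_C Ω v) r : s52v_C Ω v) : Ω) = (r : Ω) := rfl

instance s52v_smulComm (v : ValuationSubring F) :
    SMulCommClass (Ω ≃ₐ[F] Ω) (s52v_R Ω v) (s52v_C Ω v) where
  smul_comm σ r c := by
    apply Subtype.ext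
    obtain ⟨_, a, ha, rfl⟩ := r
    show σ (algebraMap F Ω a * (c : Ω)) = algebraMap F Ω a * σ (c : Ω)
    rw [map_mul, σ.commutes]

/-- The invariants of the Galois action on the integral closure are `v`. -/
theorem s52v_isInvariant [IsGalois F Ω] (v : ValuationSubring F) :
    Algebra.IsInvariant (s52v_R Ω v) (s52v_C Ω v) (Ω ≃ₐ[F] Ω) := by
  refine ⟨fun c hc => ?_⟩
  have hfix : ∀ f : Ω ≃ₐ[F] Ω, f (c : Ω) = (c : Ω) := fun f => congrArg Subtype.val (hc f)
  obtain ⟨a, ha⟩ := (InfiniteGalois.mem_range_algebraMap_iff_fixed (k := F) (K := Ω) _).mpr hfix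
  obtain ⟨A₀, hA₀⟩ := s52v_exists_ext (Ω := Ω) v
  have hcA : (c : Ω) ∈ A₀ := s52v_C_le v A₀ (s52v_R_le_of_comap v A₀ hA₀) c.2
  have hav : a ∈ v := by
    rw [← hA₀]
    show algebraMap F Ω a ∈ A₀
    rw [ha]
    exact hcA
  exact ⟨⟨algebraMap F Ω a, s52v_algebraMap_mem_R v hav⟩, Subtype.ext ha⟩

theorem s52v_continuousSMul [Algebra.IsIntegral F Ω] (v : ValuationSubring F)
    [TopologicalSpace (s52v_C Ω v)] [DiscreteTopology (s52v_C Ω v)] :
    ContinuousSMul (Ω ≃ₐ[F] Ω) (s52v_C Ω v) := by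
  rw [continuousSMul_iff_stabilizer_isOpen]
  intro b
  have := stabilizer_isOpen_of_isIntegral (K := F) (L := Ω) (b : Ω)
  convert this using 1
  ext σ
  simp only [SetLike.mem_coe, MulAction.mem_stabilizer_iff]
  exact ⟨fun h => congrArg Subtype.val h, fun h => Subtype.ext h⟩

/-- The prime `𝔪_A ∩ C` of the integral closure. -/
def s52v_q (v : ValuationSubring F) (A : ValuationSubring Ω)
    (hA : A.comap (algebraMap F Ω) = v) : Ideal (s52v_C Ω v) where
  carrier := {c | (c : Ω) ∈ A.nonunits}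
  add_mem' ha hb := A.nonunits.add_mem ha hb
  zero_mem' := A.nonunits.zero_mem
  smul_mem' c x hx := by
    have hc : (c : Ω) ∈ A := s52v_C_le v A (s52v_R_le_of_comap v A hA) c.2
    show (c : Ω) * (x : Ω) ∈ A.nonunits
    rw [ValuationSubring.mem_nonunits_iff, map_mul]
    have h1 : A.valuation (c : Ω) ≤ 1 := (ValuationSubring.valuation_le_one_iff A _).mpr hc
    have h2 : A.valuation (x : Ω) < 1 := hx
    calc A.valuation (c : Ω) * A.valuation (x : Ω) ≤ 1 * A.valuation (x : Ω) :=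
          mul_le_mul' h1 le_rfl
      _ = A.valuation (x : Ω) := one_mul _
      _ < 1 := h2

theorem s52v_mem_q (v : ValuationSubring F) (A : ValuationSubring Ω)
    (hA : A.comap (algebraMap F Ω) = v) (c : s52v_C Ω v) :
    c ∈ s52v_q v A hA ↔ (c : Ω) ∈ A.nonunits := Iff.rfl

instance s52v_q_isPrime (v : ValuationSubring F) (A : ValuationSubring Ω)
    (hA : A.comap (algebraMap F Ω) = v) : (s52v_q v A hA).IsPrime := by
  refine ⟨?_, ?_⟩
  · intro h
    have : (1 : s52v_C Ω v) ∈ s52v_q v A hA := by rw [h]; trivial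
    rw [s52v_mem_q, ValuationSubring.mem_nonunits_iff] at this
    simp at this
  · intro x y hxy
    rw [s52v_mem_q, ValuationSubring.mem_nonunits_iff] at hxy
    have hx : (x : Ω) ∈ A := s52v_C_le v A (s52v_R_le_of_comap v A hA) x.2
    have hy : (y : Ω) ∈ A := s52v_C_le v A (s52v_R_le_of_comap v A hA) y.2
    have h1 : A.valuation (x : Ω) ≤ 1 := (ValuationSubring.valuation_le_one_iff A _).mpr hx
    have h2 : A.valuation (y : Ω) ≤ 1 := (ValuationSubring.valuation_le_one_iff A _).mpr hy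
    by_contra hcon
    push Not at hcon
    obtain ⟨hnx, hny⟩ := hcon
    rw [s52v_mem_q, ValuationSubring.mem_nonunits_iff, not_lt] at hnx hny
    have e1 : A.valuation (x : Ω) = 1 := le_antisymm h1 hnx
    have e2 : A.valuation (y : Ω) = 1 := le_antisymm h2 hny
    have : A.valuation (((x * y : s52v_C Ω v) : Ω)) = 1 := by
      show A.valuation ((x : Ω) * (y : Ω)) = 1
      rw [map_mul, e1, e2, one_mul]
    rw [this] at hxy
    exact lt_irrefl _ hxy

/-- The primes `𝔪_A ∩ C` all lie over `𝔪_v`. -/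
theorem s52v_q_under (v : ValuationSubring F) (A A' : ValuationSubring Ω)
    (hA : A.comap (algebraMap F Ω) = v) (hA' : A'.comap (algebraMap F Ω) = v) :
    (s52v_q v A hA).under (s52v_R Ω v) = (s52v_q v A' hA').under (s52v_R Ω v) := by
  ext ⟨_, a, ha, rfl⟩
  simp only [Ideal.under, Ideal.mem_comap, s52v_mem_q, s52v_algRC_coe]
  rw [s52v_mem_nonunits_iff v A hA, s52v_mem_nonunits_iff v A' hA']

/-- `A` is determined by `𝔪_A ∩ C`, equivariantly. -/
theorem s52v_le_of_q [Algebra.IsAlgebraic F Ω] (v : ValuationSubring F)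
    (A A' : ValuationSubring Ω)
    (hA : A.comap (algebraMap F Ω) = v) (hA' : A'.comap (algebraMap F Ω) = v)
    (g : Ω ≃ₐ[F] Ω)
    (hg : ∀ c : s52v_C Ω v, (g (c : Ω)) ∈ A'.nonunits → (c : Ω) ∈ A.nonunits)
    {x : Ω} (hx : x ∈ A) : g x ∈ A' := by
  obtain ⟨c, d, hc, hd, hdu, hxd⟩ := s52v_exists_fraction v A hA hx
  have hgc : g c ∈ A' := s52v_C_le v A' (s52v_R_le_of_comap v A' hA') (s52v_map_mem_C v g hc)
  have hgd : g d ∈ A' := s52v_C_le v A' (s52v_R_le_of_comap v A' hA') (s52v_map_mem_C v g hd)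
  have hgdu : g d ∉ A'.nonunits := fun h => hdu (hg ⟨d, hd⟩ h)
  have e1 : A'.valuation (g d) = 1 := by
    rw [ValuationSubring.mem_nonunits_iff, not_lt] at hgdu
    exact le_antisymm ((ValuationSubring.valuation_le_one_iff A' _).mpr hgd) hgdu
  have e2 : g x * g d = g c := by rw [← map_mul, hxd]
  rw [← ValuationSubring.valuation_le_one_iff]
  have : A'.valuation (g x) = A'.valuation (g c) := by
    rw [← e2, map_mul, e1, mul_one]
  rw [this]
  exact (ValuationSubring.valuation_le_one_iff A' _).mpr hgc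

/-- **Conjugacy**: two valuation subrings of `Ω` above the same valuation subring of `F` are
conjugate under `Gal(Ω/F)`. -/
theorem s52v_conj [IsGalois F Ω] (A A' : ValuationSubring Ω)
    (h : A.comap (algebraMap F Ω) = A'.comap (algebraMap F Ω)) :
    ∃ τ : Ω ≃ₐ[F] Ω, τ • A = A' := by
  set v := A.comap (algebraMap F Ω) with hv
  have hA : A.comap (algebraMap F Ω) = v := rfl
  have hA' : A'.comap (algebraMap F Ω) = v := h.symm
  letI : TopologicalSpace (s52v_C Ω v) := ⊥
  haveI : DiscreteTopology (s52v_C Ω v) := ⟨rfl⟩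
  haveI := s52v_continuousSMul (Ω := Ω) v
  haveI := s52v_isInvariant (Ω := Ω) v
  obtain ⟨g, hg⟩ := Algebra.IsInvariant.exists_smul_of_under_eq_of_profinite
    (A := s52v_R Ω v) (B := s52v_C Ω v) (G := Ω ≃ₐ[F] Ω) (s52v_q v A hA) (s52v_q v A' hA')
    (s52v_q_under v A A' hA hA')
  have hmem : ∀ c : s52v_C Ω v, (c : Ω) ∈ A'.nonunits ↔ (g⁻¹ (c : Ω)) ∈ A.nonunits := by
    intro c
    rw [← s52v_mem_q v A' hA', hg, Ideal.mem_pointwise_smul_iff_inv_smul_mem, s52v_mem_q]
    rfl
  refine ⟨g, ?_⟩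
  ext x
  rw [ValuationSubring.mem_pointwise_smul_iff_inv_smul_mem]
  constructor
  · intro hx
    have := s52v_le_of_q v A A' hA hA' g (fun c hc => by
      have := (hmem ⟨g (c : Ω), s52v_map_mem_C v g c.2⟩).mp hc
      simpa using this) hx
    simpa using this
  · intro hx
    have := s52v_le_of_q v A' A hA' hA g⁻¹ (fun c hc => by
      exact (hmem c).mpr hc) hx
    exact this

end Fermat.Agent.S52
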