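import Mathlib
import Fermat.Agent.S52.VAL.Conj

/-!
# S52, cell [VALEXT] (4): the bridge (prefix `s52v_`)

`K₀ ⊆ F ⊆ Ω`, `Ω / K₀` normal, `Ω / F` Galois.  If `σ ∈ Aut(F/K₀)` stabilises the valuation subring
`v` of `F`, there are a valuation subring `A` of `Ω` above `v` and an extension `σ' ∈ Aut(Ω/K₀)` of
`σ` with `σ' • A = A`:

* `s52v_bridge`       (hypothesis `∀ x, σ x ∈ v ↔ x ∈ v`);
* `s52v_bridge_smul`  (hypothesis `σ • v = v`, pointwise action);
* `s52v_bridge_of_forall` (hypothesis `∀ x ∈ v, σ x ∈ v`, for `F / K₀` algebraic).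

Moreover the valuation subring `A` above `v` may be prescribed (`s52v_bridge_at`).
-/

set_option autoImplicit false

open scoped Pointwise

namespace Fermat.Agent.S52

variable {K₀ F Ω : Type*} [Field K₀] [Field F] [Field Ω] [Algebra K₀ F] [Algebra K₀ Ω]
  [Algebra F Ω] [IsScalarTower K₀ F Ω]

/-- The bridge at a prescribed valuation subring `A` above `v`. -/
theorem s52v_bridge_at [Normal K₀ Ω] [IsGalois F Ω] (v : ValuationSubring F) (σ : F ≃ₐ[K₀] F)
    (hσ : ∀ x : F, σ x ∈ v ↔ x ∈ v) (A : ValuationSubring Ω)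
    (hA : A.comap (algebraMap F Ω) = v) :
    ∃ σ' : Ω ≃ₐ[K₀] Ω, (∀ x : F, σ' (algebraMap F Ω x) = algebraMap F Ω (σ x)) ∧ σ' • A = A := by
  set σ₁ : Ω ≃ₐ[K₀] Ω := σ.liftNormal Ω with hσ₁
  have hcomm : ∀ x : F, σ₁ (algebraMap F Ω x) = algebraMap F Ω (σ x) :=
    fun x => σ.liftNormal_commutes Ω x
  have hcomm' : ∀ x : F, σ₁⁻¹ (algebraMap F Ω x) = algebraMap F Ω (σ.symm x) := by
    intro x
    have h1 := hcomm (σ.symm x)
    rw [σ.apply_symm_apply] at h1
    rw [← h1]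
    exact σ₁.symm_apply_apply _
  -- the conjugate lies above `v` again
  have hA₁ : (σ₁ • A).comap (algebraMap F Ω) = v := by
    ext x
    rw [ValuationSubring.mem_comap, ValuationSubring.mem_pointwise_smul_iff_inv_smul_mem]
    show σ₁⁻¹ (algebraMap F Ω x) ∈ A ↔ x ∈ v
    rw [hcomm', ← ValuationSubring.mem_comap, hA, ← hσ (σ.symm x), σ.apply_symm_apply]
  obtain ⟨τ, hτ⟩ := s52v_conj (F := F) (σ₁ • A) A (hA₁.trans hA.symm)
  refine ⟨(τ.restrictScalars K₀) * σ₁, fun x => ?_, ?_⟩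
  · show τ (σ₁ (algebraMap F Ω x)) = _
    rw [hcomm, τ.commutes]
  · have e : (τ.restrictScalars K₀) • (σ₁ • A) = τ • (σ₁ • A) := by
      ext x
      rw [ValuationSubring.mem_pointwise_smul_iff_inv_smul_mem (g := τ.restrictScalars K₀),
        ValuationSubring.mem_pointwise_smul_iff_inv_smul_mem (g := τ)]
      rfl
    rw [mul_smul, e, hτ]

/-- **The bridge**: a stabilised place of `F` extends to a stabilised place of `Ω`. -/
theorem s52v_bridge [Normal K₀ Ω] [IsGalois F Ω] (v : ValuationSubring F) (σ : F ≃ₐ[K₀] F)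
    (hσ : ∀ x : F, σ x ∈ v ↔ x ∈ v) :
    ∃ (A : ValuationSubring Ω) (σ' : Ω ≃ₐ[K₀] Ω), A.comap (algebraMap F Ω) = v ∧
      (∀ x : F, σ' (algebraMap F Ω x) = algebraMap F Ω (σ x)) ∧ σ' • A = A := by
  obtain ⟨A, hA⟩ := s52v_exists_ext (Ω := Ω) v
  obtain ⟨σ', h1, h2⟩ := s52v_bridge_at v σ hσ A hA
  exact ⟨A, σ', hA, h1, h2⟩

/-- The bridge, with the hypothesis in pointwise-action form. -/
theorem s52v_bridge_smul [Normal K₀ Ω] [IsGalois F Ω] (v : ValuationSubring F)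
    (σ : F ≃ₐ[K₀] F) (hσ : σ • v = v) :
    ∃ (A : ValuationSubring Ω) (σ' : Ω ≃ₐ[K₀] Ω), A.comap (algebraMap F Ω) = v ∧
      (∀ x : F, σ' (algebraMap F Ω x) = algebraMap F Ω (σ x)) ∧ σ' • A = A := by
  refine s52v_bridge v σ fun x => ?_
  conv_lhs => rw [← hσ]
  exact ValuationSubring.smul_mem_pointwise_smul_iff (g := σ) (S := v) (x := x)

/-- In an algebraic extension, `σ(v) ⊆ v` implies `σ(v) = v`. -/
theorem s52v_stab_iff [Algebra.IsAlgebraic K₀ F] (v : ValuationSubring F) (σ : F ≃ₐ[K₀] F)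
    (hσ : ∀ x ∈ v, σ x ∈ v) (x : F) : σ x ∈ v ↔ x ∈ v := by
  refine ⟨fun hx => ?_, hσ x⟩
  -- the orbit of `x` under `σ` is finite
  have halg : IsAlgebraic K₀ x := Algebra.IsAlgebraic.isAlgebraic x
  have hfin : ((minpoly K₀ x).rootSet F).Finite := Polynomial.rootSet_finite _ _
  have hmem : ∀ n : ℕ, (σ ^ n) x ∈ (minpoly K₀ x).rootSet F := by
    intro n
    rw [Polynomial.mem_rootSet]
    refine ⟨minpoly.ne_zero halg.isIntegral, ?_⟩
    rw [Polynomial.aeval_algEquiv, AlgHom.coe_comp, Function.comp_apply, minpoly.aeval, map_zero]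
  obtain ⟨i, j, hij, hEq⟩ : ∃ i j : ℕ, i < j ∧ (σ ^ i) x = (σ ^ j) x := by
    by_contra hcon
    push Not at hcon
    have hinj : Function.Injective fun n : ℕ => (⟨(σ ^ n) x, hmem n⟩ :
        (minpoly K₀ x).rootSet F) := by
      intro m n hmn
      have h' : (σ ^ m) x = (σ ^ n) x := congrArg Subtype.val hmn
      rcases lt_trichotomy m n with h | h | h
      · exact absurd h' (hcon m n h)
      · exact h
      · exact absurd h'.symm (hcon n m h)
    have := hfin.to_subtype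
    exact not_injective_infinite_finite _ hinj
  -- hence `σ ^ k x = x` for some `k ≥ 1`
  obtain ⟨k, rfl⟩ := Nat.exists_eq_add_of_lt hij
  have hk : (σ ^ (k + 1)) x = x := by
    have : (σ ^ i) ((σ ^ (k + 1)) x) = (σ ^ i) x := by
      rw [← AlgEquiv.mul_apply, ← pow_add, hEq]
      congr 2
    exact (σ ^ i).injective this
  have hpow : ∀ n : ℕ, ∀ y ∈ v, (σ ^ n) y ∈ v := by
    intro n
    induction n with
    | zero => intro y hy; simpa using hy
    | succ n ih =>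
      intro y hy
      rw [pow_succ, AlgEquiv.mul_apply]
      exact ih _ (hσ y hy)
  have := hpow k (σ x) hx
  rwa [← AlgEquiv.mul_apply, ← pow_succ, hk] at this

/-- The bridge, with the hypothesis `σ(v) ⊆ v` (for `F / K₀` algebraic). -/
theorem s52v_bridge_of_forall [Algebra.IsAlgebraic K₀ F] [Normal K₀ Ω] [IsGalois F Ω]
    (v : ValuationSubring F) (σ : F ≃ₐ[K₀] F) (hσ : ∀ x ∈ v, σ x ∈ v) :
    ∃ (A : ValuationSubring Ω) (σ' : Ω ≃ₐ[K₀] Ω), A.comap (algebraMap F Ω) = v ∧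
      (∀ x : F, σ' (algebraMap F Ω x) = algebraMap F Ω (σ x)) ∧ σ' • A = A :=
  s52v_bridge v σ (s52v_stab_iff v σ hσ)

end Fermat.Agent.S52
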